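/-
Row S26, block BETA (helper867): pure algebra (Mathlib only).

Main result `finrank_coordSub_eq`: let `F / K` be a field extension and `w, w' : Fin (g+1) → F`
two systems of "homogeneous coordinates" such that every valuation ring of `F` containing `K`
contains all `w' j / w b` for some `b` (and symmetrically), with algebraically independent
affine coordinates.  Then `[F : K(w_i / w_0)] = [F : K(w'_i / w'_0)]`.

Proof: (1) valuative criterion of integrality in `F(z)`: `w' j z` is integral over the Rees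
algebra `K[w z]`, so `N = span w` is a *reduction* of `M = span w + span w'`
(`M ^ (d+1) ≤ N * M ^ d`);  (2) Hilbert-function sandwich
`r * h (s) ≤ ρ' * h (s + n)` with `h` the Hilbert function of the polynomial ring, which has
polynomial growth, hence `r ≤ ρ'`.
-/
import Mathlib

set_option autoImplicit false

open Polynomial

namespace Fermat.Agent.S26.Beta.H867

section Growth

/-- Exponential growth is incompatible with a polynomial bound. -/
theorem le_of_growth (g : ℕ) (h : ℕ → ℕ) (h1 : ∀ m, 1 ≤ h m) (h2 : ∀ m, h m ≤ (m + 1) ^ g)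
    (r ρ δ : ℕ) (H : ∀ s, r * h s ≤ ρ * h (s + δ)) : r ≤ ρ := by
  by_contra hlt
  rw [not_le] at hlt
  have hρ : 0 < ρ := by
    rcases Nat.eq_zero_or_pos ρ with h0 | h0
    · subst h0
      have := H 0
      have := h1 0
      nlinarith
    · exact h0
  have H' : ∀ s, (ρ + 1) * h s ≤ ρ * h (s + δ) := fun s =>
    (Nat.mul_le_mul_right _ hlt).trans (H s)
  have key : ∀ k : ℕ, (ρ + 1) ^ k ≤ ρ ^ k * h (k * δ) := by
    intro k
    induction k with
    | zero => simpa using h1 0
    | succ k ih =>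
      calc (ρ + 1) ^ (k + 1) = (ρ + 1) ^ k * (ρ + 1) := pow_succ _ _
        _ ≤ ρ ^ k * h (k * δ) * (ρ + 1) := Nat.mul_le_mul_right _ ih
        _ = ρ ^ k * ((ρ + 1) * h (k * δ)) := by ring
        _ ≤ ρ ^ k * (ρ * h (k * δ + δ)) := Nat.mul_le_mul_left _ (H' _)
        _ = ρ ^ (k + 1) * h ((k + 1) * δ) := by rw [pow_succ, Nat.succ_mul]; ring
  -- real analysis
  set a : ℝ := ((ρ : ℝ) + 1) / ρ with ha
  have hρ' : (0 : ℝ) < ρ := by exact_mod_cast hρ
  have ha1 : 1 < a := by
    rw [ha, lt_div_iff₀ hρ']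
    linarith
  have hbound : ∀ k : ℕ, 1 ≤ k → a ^ k ≤ ((δ : ℝ) + 1) ^ g * (k : ℝ) ^ g := by
    intro k hk
    have e1 : a ^ k = ((ρ : ℝ) + 1) ^ k / (ρ : ℝ) ^ k := by rw [ha, div_pow]
    rw [e1, div_le_iff₀ (pow_pos hρ' k)]
    have e2 : (((ρ + 1) ^ k : ℕ) : ℝ) ≤ ((ρ ^ k * h (k * δ) : ℕ) : ℝ) := by
      exact_mod_cast key k
    push_cast at e2
    have e3 : ((h (k * δ) : ℕ) : ℝ) ≤ ((δ : ℝ) + 1) ^ g * (k : ℝ) ^ g := by
      have := h2 (k * δ)
      have e4 : ((h (k * δ) : ℕ) : ℝ) ≤ (((k * δ + 1) ^ g : ℕ) : ℝ) := by exact_mod_cast this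
      refine e4.trans ?_
      push_cast
      rw [← mul_pow]
      apply pow_le_pow_left₀ (by positivity)
      have hk' : (1 : ℝ) ≤ k := by exact_mod_cast hk
      nlinarith [Nat.cast_nonneg (α := ℝ) δ]
    calc ((ρ : ℝ) + 1) ^ k ≤ (ρ : ℝ) ^ k * (h (k * δ) : ℝ) := e2
      _ ≤ (ρ : ℝ) ^ k * (((δ : ℝ) + 1) ^ g * (k : ℝ) ^ g) := by gcongr
      _ = ((δ : ℝ) + 1) ^ g * (k : ℝ) ^ g * (ρ : ℝ) ^ k := by ring
  have htend := tendsto_pow_const_div_const_pow_of_one_lt g ha1
  have hpos : (0 : ℝ) < 1 / ((δ : ℝ) + 1) ^ g := by positivity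
  have hev := (htend.eventually (gt_mem_nhds hpos)).and (Filter.eventually_ge_atTop 1)
  obtain ⟨k, hk, hk1⟩ := hev.exists
  have hak : (0 : ℝ) < a ^ k := pow_pos (lt_trans zero_lt_one ha1) k
  have hb := hbound k hk1
  rw [div_lt_div_iff₀ hak (by positivity), one_mul] at hk
  linarith [mul_comm ((k : ℝ) ^ g) (((δ : ℝ) + 1) ^ g)]

end Growth

section T1sec

variable (K : Type*) {A B : Type*} [Field K] [CommRing A] [Algebra K A] [CommRing B] [Algebra K B]
  {g : ℕ}

/-- The `K`-span of `1, t_1, …, t_g`. -/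
def T1 (t : Fin g → A) : Submodule K A := Submodule.span K (insert 1 (Set.range t))

variable {K}

theorem one_mem_T1 (t : Fin g → A) : (1 : A) ∈ T1 K t :=
  Submodule.subset_span (Set.mem_insert _ _)

theorem mem_T1 (t : Fin g → A) (i : Fin g) : t i ∈ T1 K t :=
  Submodule.subset_span (Set.mem_insert_of_mem _ ⟨i, rfl⟩)

theorem one_le_T1 (t : Fin g → A) : (1 : Submodule K A) ≤ T1 K t :=
  Submodule.one_le.mpr (one_mem_T1 t)

theorem T1_pow_mono (t : Fin g → A) {m n : ℕ} (h : m ≤ n) : T1 K t ^ m ≤ T1 K t ^ n :=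
  pow_le_pow_right' (one_le_T1 t) h

theorem T1_fg (t : Fin g → A) : (T1 K t).FG :=
  Submodule.fg_span ((Set.finite_range t).insert 1)

instance finite_T1_pow (t : Fin g → A) (m : ℕ) : Module.Finite K ↥(T1 K t ^ m) :=
  Module.Finite.iff_fg.mpr ((T1_fg t).pow m)

theorem one_mem_T1_pow (t : Fin g → A) (m : ℕ) : (1 : A) ∈ T1 K t ^ m := by
  have := Submodule.pow_mem_pow (T1 K t) (one_mem_T1 t) m
  rwa [one_pow] at this

theorem T1_pow_le_span (t : Fin g → A) (m : ℕ) :
    T1 K t ^ m ≤ Submodule.span K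
      (Set.range fun α : Fin g → Fin (m + 1) => ∏ i, t i ^ (α i : ℕ)) := by
  induction m with
  | zero =>
    rw [pow_zero, Submodule.one_eq_span]
    apply Submodule.span_mono
    rintro _ rfl
    exact ⟨fun _ => 0, by simp⟩
  | succ m ih =>
    rw [pow_succ]
    refine (mul_le_mul' ih le_rfl).trans ?_
    rw [T1, Submodule.span_mul_span]
    apply Submodule.span_mono
    rintro _ ⟨_, ⟨α, rfl⟩, y, hy, rfl⟩
    rcases hy with rfl | ⟨j, rfl⟩
    · refine ⟨fun i => (α i).castSucc, ?_⟩
      simp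
    · refine ⟨fun i => if i = j then (α i).succ else (α i).castSucc, ?_⟩
      have : ∀ i, t i ^ ((if i = j then (α i).succ else (α i).castSucc : Fin (m + 1 + 1)) : ℕ) =
          t i ^ (α i : ℕ) * (if i = j then t i else 1) := by
        intro i
        split_ifs with h
        · simp [pow_succ]
        · simp
      simp only [this, Finset.prod_mul_distrib, Finset.prod_ite_eq', Finset.mem_univ, if_true]

theorem finrank_T1_pow_le (t : Fin g → A) (m : ℕ) :
    Module.finrank K ↥(T1 K t ^ m) ≤ (m + 1) ^ g := by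
  have h1 := T1_pow_le_span (K := K) t m
  have h2 := finrank_range_le_card (R := K)
    (fun α : Fin g → Fin (m + 1) => ∏ i, t i ^ (α i : ℕ))
  simp only [Fintype.card_pi, Fintype.card_fin, Finset.prod_const, Finset.card_univ] at h2
  have : Module.Finite K ↥(Submodule.span K
      (Set.range fun α : Fin g → Fin (m + 1) => ∏ i, t i ^ (α i : ℕ))) :=
    Module.Finite.iff_fg.mpr (Submodule.fg_span (Set.finite_range _))
  exact (Submodule.finrank_mono h1).trans h2

theorem one_le_finrank_T1_pow [Nontrivial A] (t : Fin g → A) (m : ℕ) :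
    1 ≤ Module.finrank K ↥(T1 K t ^ m) := by
  rw [Nat.one_le_iff_ne_zero, Ne, Submodule.finrank_eq_zero]
  intro h
  have := one_mem_T1_pow (K := K) t m
  rw [h, Submodule.mem_bot] at this
  exact one_ne_zero this

theorem map_T1 (a : A →ₐ[K] B) (t : Fin g → A) :
    (T1 K t).map a.toLinearMap = T1 K (fun i => a (t i)) := by
  rw [T1, T1, Submodule.map_span, Set.image_insert_eq]
  congr 2
  · simp
  · ext x
    simp [Set.mem_image]

theorem map_T1_pow (a : A →ₐ[K] B) (t : Fin g → A) (m : ℕ) :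
    (T1 K t ^ m).map a.toLinearMap = T1 K (fun i => a (t i)) ^ m := by
  rw [Submodule.map_pow, map_T1]

theorem finrank_T1_pow_map (a : A →ₐ[K] B) (ha : Function.Injective a) (t : Fin g → A)
    (m : ℕ) :
    Module.finrank K ↥(T1 K (fun i => a (t i)) ^ m) = Module.finrank K ↥(T1 K t ^ m) := by
  rw [← map_T1_pow]
  exact (LinearEquiv.finrank_eq
    (Submodule.equivMapOfInjective a.toLinearMap ha (T1 K t ^ m))).symm

variable (K) in
/-- The Hilbert function of the polynomial ring in `g` variables (by degree `≤ m`). -/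
noncomputable def hfun (g m : ℕ) : ℕ :=
  Module.finrank K ↥(T1 K (MvPolynomial.X : Fin g → MvPolynomial (Fin g) K) ^ m)

theorem finrank_T1_pow_of_indep (t : Fin g → A)
    (hi : ∀ p : MvPolynomial (Fin g) K, MvPolynomial.eval₂ (algebraMap K A) t p = 0 → p = 0)
    (m : ℕ) : Module.finrank K ↥(T1 K t ^ m) = hfun K g m := by
  have hinj : Function.Injective (MvPolynomial.aeval t : MvPolynomial (Fin g) K →ₐ[K] A) := by
    rw [injective_iff_map_eq_zero]
    intro p hp
    exact hi p (by rwa [MvPolynomial.aeval_def] at hp)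
  have := finrank_T1_pow_map (MvPolynomial.aeval t : MvPolynomial (Fin g) K →ₐ[K] A) hinj
    MvPolynomial.X m
  have e : (fun i => (MvPolynomial.aeval t : MvPolynomial (Fin g) K →ₐ[K] A)
      (MvPolynomial.X i)) = t := funext fun i => MvPolynomial.aeval_X t i
  rw [e] at this
  exact this

theorem one_le_hfun (g m : ℕ) : 1 ≤ hfun K g m := one_le_finrank_T1_pow _ m

theorem hfun_le (g m : ℕ) : hfun K g m ≤ (m + 1) ^ g := finrank_T1_pow_le _ m

theorem hfun_mono (g : ℕ) {m n : ℕ} (h : m ≤ n) : hfun K g m ≤ hfun K g n :=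
  Submodule.finrank_mono (T1_pow_mono _ h)

end T1sec

section Field

variable {K F : Type*} [Field K] [Field F] [Algebra K F]

/-- The Rees algebra of a `K`-subspace `N` of `F`, inside `F[X]`. -/
def rees (N : Submodule K F) : Subalgebra K F[X] where
  carrier := {p | ∀ i, p.coeff i ∈ N ^ i}
  mul_mem' := by
    intro p q hp hq n
    rw [Polynomial.coeff_mul]
    refine Submodule.sum_mem _ fun x hx => ?_
    have h := Finset.HasAntidiagonal.mem_antidiagonal.mp hx
    rw [← h, pow_add]
    exact Submodule.mul_mem_mul (hp _) (hq _)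
  add_mem' := by
    intro p q hp hq n
    rw [Polynomial.coeff_add]
    exact Submodule.add_mem _ (hp n) (hq n)
  algebraMap_mem' := by
    intro c n
    rw [Polynomial.algebraMap_apply, Polynomial.coeff_C]
    split_ifs with h
    · subst h
      rw [pow_zero]
      exact Submodule.algebraMap_mem c
    · exact Submodule.zero_mem _

theorem mem_rees {N : Submodule K F} {p : F[X]} : p ∈ rees N ↔ ∀ i, p.coeff i ∈ N ^ i := Iff.rfl

theorem C_mul_X_mem_rees {N : Submodule K F} {a : F} (ha : a ∈ N) : C a * X ∈ rees N := by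
  intro i
  rw [Polynomial.coeff_C_mul, Polynomial.coeff_X]
  split_ifs with h
  · subst h
    simpa using ha
  · simp

/-- VAL hypothesis: every valuation ring of `F` containing `K` contains all `w' j / w b` for
some `b` with `w b ≠ 0`. -/
def ValBPF (K : Type*) {F : Type*} [Field K] [Field F] [Algebra K F] {ι ι' : Type*}
    (w : ι → F) (w' : ι' → F) : Prop :=
  ∀ V : ValuationSubring F, (∀ c : K, algebraMap K F c ∈ V) →
    ∃ b, w b ≠ 0 ∧ ∀ j, w' j / w b ∈ V

theorem isIntegral_rees {ι ι' : Type*} (w : ι → F) (w' : ι' → F) (h : ValBPF K w w') (j : ι') :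
    algebraMap F[X] (RatFunc F) (C (w' j) * X) ∈
      (integralClosure ((rees (Submodule.span K (Set.range w))).toSubring.map
        (algebraMap F[X] (RatFunc F))) (RatFunc F)).toSubring := by
  set N := Submodule.span K (Set.range w) with hN
  set S : Subring (RatFunc F) := (rees N).toSubring.map (algebraMap F[X] (RatFunc F)) with hS
  have key := iInf_valuationSubring_superset (K := RatFunc F) (s := (S : Set (RatFunc F)))
  rw [Subring.closure_eq] at key
  rw [← key, Subring.mem_iInf]
  rintro ⟨V, hV⟩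
  have hV' : ∀ p ∈ rees N, algebraMap F[X] (RatFunc F) p ∈ V := fun p hp =>
    hV ⟨p, hp, rfl⟩
  have e : ∀ a : F, algebraMap F[X] (RatFunc F) (C a) = algebraMap F (RatFunc F) a := fun a => by
    rw [IsScalarTower.algebraMap_apply F F[X] (RatFunc F), Polynomial.algebraMap_apply,
      Algebra.algebraMap_self_apply]
  let VF : ValuationSubring F := V.comap (algebraMap F (RatFunc F))
  have hK : ∀ c : K, algebraMap K F c ∈ VF := by
    intro c
    change algebraMap F (RatFunc F) (algebraMap K F c) ∈ V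
    have := hV' (algebraMap K F[X] c) ((rees N).algebraMap_mem c)
    rwa [Polynomial.algebraMap_apply, e] at this
  obtain ⟨b, hb, hj⟩ := h VF hK
  have h1 : algebraMap F (RatFunc F) (w' j / w b) ∈ V := hj j
  have h2 : algebraMap F[X] (RatFunc F) (C (w b) * X) ∈ V :=
    hV' _ (C_mul_X_mem_rees (Submodule.subset_span ⟨b, rfl⟩))
  have h3 : algebraMap F[X] (RatFunc F) (C (w' j) * X) =
      algebraMap F (RatFunc F) (w' j / w b) * algebraMap F[X] (RatFunc F) (C (w b) * X) := by
    rw [← e, ← map_mul, ← mul_assoc, ← C_mul, div_mul_cancel₀ _ hb]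
  change algebraMap F[X] (RatFunc F) (C (w' j) * X) ∈ V
  rw [h3]
  exact V.mul_mem _ _ h1 h2

theorem exists_hom_relation {ι ι' : Type*} (w : ι → F) (w' : ι' → F) (h : ValBPF K w w')
    (j : ι') :
    ∃ (n : ℕ) (c : ℕ → F), (∀ k < n, c k ∈ (Submodule.span K (Set.range w)) ^ (n - k)) ∧
      (w' j) ^ n = ∑ k ∈ Finset.range n, c k * (w' j) ^ k := by
  set N := Submodule.span K (Set.range w) with hN
  have hint := isIntegral_rees w w' h j
  rw [← hN] at hint
  set S : Subring (RatFunc F) := (rees N).toSubring.map (algebraMap F[X] (RatFunc F)) with hS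
  set φ := algebraMap F[X] (RatFunc F) with hφ
  have hφinj : Function.Injective φ := IsFractionRing.injective F[X] (RatFunc F)
  obtain ⟨Q, hQm, hQ⟩ : IsIntegral S (φ (C (w' j) * X)) := hint
  have hmem : ∀ k, ∃ p ∈ rees N, φ p = (Q.coeff k : RatFunc F) := by
    intro k
    obtain ⟨p, hp, hpe⟩ := (Q.coeff k).2
    exact ⟨p, hp, hpe⟩
  choose p hp hpe using hmem
  set n := Q.natDegree with hn
  have hpn : p n = 1 := by
    apply hφinj
    rw [hpe, hn, hQm.coeff_natDegree, map_one]
    rfl
  rw [Polynomial.eval₂_eq_sum_range] at hQ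
  have h1 : φ (∑ k ∈ Finset.range (n + 1), p k * (C (w' j) * X) ^ k) = 0 := by
    rw [map_sum, ← hQ]
    refine Finset.sum_congr rfl fun k _ => ?_
    rw [map_mul, map_pow, hpe]
    rfl
  have h2 : ∑ k ∈ Finset.range (n + 1), p k * (C (w' j) * X) ^ k = 0 :=
    hφinj (h1.trans (map_zero φ).symm)
  have h3 := congrArg (fun q => Polynomial.coeff q n) h2
  simp only [Polynomial.finsetSum_coeff, Polynomial.coeff_zero] at h3
  have h4 : ∀ k ∈ Finset.range (n + 1),
      (p k * (C (w' j) * X) ^ k).coeff n = (p k).coeff (n - k) * (w' j) ^ k := by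
    intro k hk
    have hk' : k ≤ n := Nat.lt_succ_iff.mp (Finset.mem_range.mp hk)
    rw [mul_pow, ← C_pow, ← mul_assoc, Polynomial.coeff_mul_X_pow', if_pos hk',
      Polynomial.coeff_mul_C]
  rw [Finset.sum_congr rfl h4, Finset.sum_range_succ, hpn] at h3
  simp only [Nat.sub_self, Polynomial.coeff_one_zero, one_mul] at h3
  refine ⟨n, fun k => -(p k).coeff (n - k), fun k _ => ?_, ?_⟩
  · exact Submodule.neg_mem _ (hp k (n - k))
  · rw [eq_neg_of_add_eq_zero_right h3]
    simp only [neg_mul, Finset.sum_neg_distrib]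

/-! ## Reductions -/

/-- `N` is a reduction of `M` with reduction number at most `d`. -/
def IsRed (N M : Submodule K F) (d : ℕ) : Prop := N ≤ M ∧ M ^ (d + 1) ≤ N * M ^ d

theorem IsRed.pow_le {N M : Submodule K F} {d : ℕ} (h : IsRed N M d) (s : ℕ) :
    M ^ (s + d) ≤ N ^ s * M ^ d := by
  induction s with
  | zero => simp
  | succ s ih =>
    calc M ^ (s + 1 + d) = M ^ (s + d) * M := by rw [← pow_succ]; congr 1; omega
      _ ≤ N ^ s * M ^ d * M := by gcongr
      _ = N ^ s * M ^ (d + 1) := by rw [mul_assoc, ← pow_succ]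
      _ ≤ N ^ s * (N * M ^ d) := by gcongr; exact h.2
      _ = N ^ (s + 1) * M ^ d := by rw [← mul_assoc, ← pow_succ]

theorem IsRed.trans {N M₁ M₂ : Submodule K F} {d₁ d₂ : ℕ} (h₁ : IsRed N M₁ d₁)
    (h₂ : IsRed M₁ M₂ d₂) : IsRed N M₂ (d₁ + d₂) := by
  refine ⟨h₁.1.trans h₂.1, ?_⟩
  calc M₂ ^ (d₁ + d₂ + 1) = M₂ ^ (d₁ + 1 + d₂) := by congr 1; omega
    _ ≤ M₁ ^ (d₁ + 1) * M₂ ^ d₂ := h₂.pow_le (d₁ + 1)
    _ ≤ N * M₁ ^ d₁ * M₂ ^ d₂ := by gcongr; exact h₁.2
    _ ≤ N * M₂ ^ d₁ * M₂ ^ d₂ := by gcongr; exact h₂.1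
    _ = N * M₂ ^ (d₁ + d₂) := by rw [mul_assoc, ← pow_add]

theorem pow_succ_le_sup_span (N₁ : Submodule K F) (x : F) (m : ℕ) :
    (N₁ ⊔ Submodule.span K {x}) ^ (m + 1) ≤
      N₁ * (N₁ ⊔ Submodule.span K {x}) ^ m ⊔ Submodule.span K {x ^ (m + 1)} := by
  set M₁ := N₁ ⊔ Submodule.span K {x} with hM₁
  have hN : N₁ ≤ M₁ := le_sup_left
  have hx : Submodule.span K {x} ≤ M₁ := le_sup_right
  have hxp : ∀ k : ℕ, Submodule.span K {x ^ k} ≤ M₁ ^ k := by
    intro k
    rw [Submodule.span_le, Set.singleton_subset_iff]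
    exact Submodule.pow_mem_pow M₁ (hx (Submodule.mem_span_singleton_self x)) k
  induction m with
  | zero =>
    simp only [zero_add, pow_one, pow_zero, mul_one]
    exact le_rfl
  | succ m ih =>
    calc M₁ ^ (m + 1 + 1) = M₁ ^ (m + 1) * M₁ := pow_succ _ _
      _ ≤ (N₁ * M₁ ^ m ⊔ Submodule.span K {x ^ (m + 1)}) * (N₁ ⊔ Submodule.span K {x}) := by
          gcongr
      _ = N₁ * M₁ ^ m * N₁ ⊔ N₁ * M₁ ^ m * Submodule.span K {x} ⊔
            (Submodule.span K {x ^ (m + 1)} * N₁ ⊔
              Submodule.span K {x ^ (m + 1)} * Submodule.span K {x}) := by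
          rw [Submodule.sup_mul, Submodule.mul_sup, Submodule.mul_sup]
      _ ≤ N₁ * M₁ ^ (m + 1) ⊔ Submodule.span K {x ^ (m + 1 + 1)} := by
          refine sup_le (sup_le ?_ ?_) (sup_le ?_ ?_)
          · refine le_sup_of_le_left ?_
            rw [mul_assoc, pow_succ]
            gcongr
          · refine le_sup_of_le_left ?_
            rw [mul_assoc, pow_succ]
            gcongr
          · refine le_sup_of_le_left ?_
            rw [mul_comm]
            gcongr
            exact hxp (m + 1)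
          · refine le_sup_of_le_right ?_
            rw [Submodule.span_mul_span, Set.singleton_mul_singleton, ← pow_succ]

theorem isRed_sup_span_singleton (N₁ : Submodule K F) (x : F) (n : ℕ) (c : ℕ → F)
    (hc : ∀ k < n, c k ∈ N₁ ^ (n - k)) (hx : x ^ n = ∑ k ∈ Finset.range n, c k * x ^ k) :
    IsRed N₁ (N₁ ⊔ Submodule.span K {x}) (n - 1) := by
  set M₁ := N₁ ⊔ Submodule.span K {x} with hM₁
  have hN : N₁ ≤ M₁ := le_sup_left
  have hxM : x ∈ M₁ := (le_sup_right : Submodule.span K {x} ≤ M₁)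
    (Submodule.mem_span_singleton_self x)
  have hn : 1 ≤ n := by
    rcases Nat.eq_zero_or_pos n with h0 | h0
    · subst h0
      simp at hx
    · exact h0
  refine ⟨hN, ?_⟩
  have h1 : n - 1 + 1 = n := Nat.sub_add_cancel hn
  have h2 := pow_succ_le_sup_span N₁ x (n - 1)
  rw [h1] at h2 ⊢
  refine h2.trans (sup_le le_rfl ?_)
  rw [Submodule.span_le, Set.singleton_subset_iff, hx]
  refine Submodule.sum_mem _ fun k hk => ?_
  have hk' : k < n := Finset.mem_range.mp hk
  have h3 : c k ∈ N₁ * M₁ ^ (n - k - 1) := by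
    have : N₁ ^ (n - k) ≤ N₁ * M₁ ^ (n - k - 1) := by
      have e : n - k = (n - k - 1) + 1 := by omega
      rw [e, pow_succ', Nat.add_sub_cancel]
      gcongr
    exact this (hc k hk')
  have h4 : x ^ k ∈ M₁ ^ k := Submodule.pow_mem_pow M₁ hxM k
  have h5 : c k * x ^ k ∈ N₁ * M₁ ^ (n - k - 1) * M₁ ^ k := Submodule.mul_mem_mul h3 h4
  rwa [mul_assoc, ← pow_add, show n - k - 1 + k = n - 1 by omega] at h5

theorem exists_isRed {ι ι' : Type*} [Finite ι'] (w : ι → F) (w' : ι' → F)
    (h : ValBPF K w w') :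
    ∃ d, IsRed (Submodule.span K (Set.range w))
      (Submodule.span K (Set.range w) ⊔ Submodule.span K (Set.range w')) d := by
  classical
  set N := Submodule.span K (Set.range w) with hN
  have key : ∀ J : Finset ι', ∃ d, IsRed N (N ⊔ Submodule.span K (w' '' (J : Set ι'))) d := by
    intro J
    induction J using Finset.induction_on with
    | empty =>
      refine ⟨0, ?_⟩
      simp only [Finset.coe_empty, Set.image_empty, Submodule.span_empty, sup_bot_eq]
      exact ⟨le_rfl, by simp⟩
    | insert j J _ ih =>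
      obtain ⟨d, hd⟩ := ih
      obtain ⟨n, c, hc, hx⟩ := exists_hom_relation w w' h j
      have hc' : ∀ k < n, c k ∈ (N ⊔ Submodule.span K (w' '' (J : Set ι'))) ^ (n - k) :=
        fun k hk => (pow_le_pow_left' (le_sup_left : N ≤ _) (n - k)) (hc k hk)
      have := isRed_sup_span_singleton _ (w' j) n c hc' hx
      refine ⟨d + (n - 1), ?_⟩
      have e : N ⊔ Submodule.span K (w' '' ((insert j J : Finset ι') : Set ι')) =
          N ⊔ Submodule.span K (w' '' (J : Set ι')) ⊔ Submodule.span K {w' j} := by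
        rw [Finset.coe_insert, Set.image_insert_eq, Set.insert_eq, Submodule.span_union,
          sup_assoc, sup_comm (Submodule.span K {w' j})]
      rw [e]
      exact hd.trans this
  have := Fintype.ofFinite ι'
  obtain ⟨d, hd⟩ := key Finset.univ
  refine ⟨d, ?_⟩
  simpa using hd

/-! ## Dimension of products of subspaces -/

theorem finrank_mul_le (M N : Submodule K F) [Module.Finite K M] [Module.Finite K N] :
    Module.finrank K ↥(M * N) ≤ Module.finrank K M * Module.finrank K N := by
  rw [← Submodule.mulMap_range, ← Module.finrank_tensorProduct (R := K) (S := K)]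
  exact LinearMap.finrank_range_le _

theorem span_singleton_mul_eq_map (a : F) (V : Submodule K F) :
    Submodule.span K {a} * V = V.map (LinearMap.mulLeft K a) := by
  apply le_antisymm
  · rw [Submodule.mul_le]
    intro x hx v hv
    obtain ⟨c, rfl⟩ := Submodule.mem_span_singleton.mp hx
    refine ⟨c • v, V.smul_mem c hv, ?_⟩
    simp [LinearMap.mulLeft_apply]
  · rintro _ ⟨v, hv, rfl⟩
    exact Submodule.mul_mem_mul (Submodule.mem_span_singleton_self a) hv

theorem finrank_span_singleton_mul {a : F} (ha : a ≠ 0) (V : Submodule K F) :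
    Module.finrank K ↥(Submodule.span K {a} * V) = Module.finrank K V := by
  rw [span_singleton_mul_eq_map]
  have hinj : Function.Injective (LinearMap.mulLeft K a) := by
    intro x y hxy
    exact mul_left_cancel₀ ha hxy
  exact (LinearEquiv.finrank_eq (Submodule.equivMapOfInjective _ hinj V)).symm

theorem fg_of_finite (V : Submodule K F) [Module.Finite K V] : V.FG :=
  Module.Finite.iff_fg.mp inferInstance

theorem finite_mul (M N : Submodule K F) [Module.Finite K M] [Module.Finite K N] :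
    Module.Finite K ↥(M * N) :=
  Module.Finite.iff_fg.mpr ((fg_of_finite M).mul (fg_of_finite N))

theorem finite_pow (M : Submodule K F) [Module.Finite K M] (n : ℕ) :
    Module.Finite K ↥(M ^ n) :=
  Module.Finite.iff_fg.mpr ((fg_of_finite M).pow n)
section Coord

variable {g : ℕ}

variable (K) in
/-- The subfield `K(t_1, …, t_g)` of `F`. -/
def coordSub (t : Fin g → F) : Subfield F :=
  Subfield.closure (Set.range (algebraMap K F) ∪ Set.range t)

theorem exists_mem_T1_pow_of_mem_closure (t : Fin g → F) {y : F}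
    (hy : y ∈ Subring.closure (Set.range (algebraMap K F) ∪ Set.range t)) :
    ∃ n, y ∈ T1 K t ^ n := by
  induction hy using Subring.closure_induction with
  | mem x hx =>
    rcases hx with ⟨c, rfl⟩ | ⟨i, rfl⟩
    · refine ⟨0, ?_⟩
      rw [pow_zero]
      exact Submodule.algebraMap_mem c
    · exact ⟨1, by rw [pow_one]; exact mem_T1 t i⟩
  | zero => exact ⟨0, Submodule.zero_mem _⟩
  | one => exact ⟨0, by rw [pow_zero]; exact Submodule.one_le.mp le_rfl⟩
  | add x y _ _ hx hy =>
    obtain ⟨n, hn⟩ := hx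
    obtain ⟨m, hm⟩ := hy
    exact ⟨n + m, Submodule.add_mem _ (T1_pow_mono t (Nat.le_add_right n m) hn)
      (T1_pow_mono t (Nat.le_add_left m n) hm)⟩
  | neg x _ hx =>
    obtain ⟨n, hn⟩ := hx
    exact ⟨n, Submodule.neg_mem _ hn⟩
  | mul x y _ _ hx hy =>
    obtain ⟨n, hn⟩ := hx
    obtain ⟨m, hm⟩ := hy
    exact ⟨n + m, by rw [pow_add]; exact Submodule.mul_mem_mul hn hm⟩

theorem mem_coordSub_of_mem_T1_pow (t : Fin g → F) {m : ℕ} {x : F} (hx : x ∈ T1 K t ^ m) :
    x ∈ coordSub K t := by
  have hK : ∀ c : K, algebraMap K F c ∈ coordSub K t := fun c =>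
    Subfield.subset_closure (Or.inl ⟨c, rfl⟩)
  have ht : ∀ i, t i ∈ coordSub K t := fun i => Subfield.subset_closure (Or.inr ⟨i, rfl⟩)
  have h1 : ∀ y ∈ T1 K t, y ∈ coordSub K t := by
    intro y hy
    induction hy using Submodule.span_induction with
    | mem y hy =>
      rcases hy with rfl | ⟨i, rfl⟩
      · exact one_mem _
      · exact ht i
    | zero => exact zero_mem _
    | add y z _ _ hy hz => exact add_mem hy hz
    | smul c y _ hy =>
      rw [Algebra.smul_def]
      exact mul_mem (hK c) hy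
  exact Submodule.pow_induction_on_left (T1 K t) (C := fun y => y ∈ coordSub K t) hK
    (fun y z hy hz => add_mem hy hz) (fun y hy z hz => mul_mem (h1 y hy) hz) hx

theorem exists_frac_of_mem_coordSub (t : Fin g → F) {x : F} (hx : x ∈ coordSub K t) :
    ∃ (n : ℕ) (y z : F), y ∈ T1 K t ^ n ∧ z ∈ T1 K t ^ n ∧ z ≠ 0 ∧ x = y / z := by
  obtain ⟨y, hy, z, hz, rfl⟩ := Subfield.mem_closure_iff.mp hx
  by_cases hz0 : z = 0
  · refine ⟨0, 0, 1, Submodule.zero_mem _, ?_, one_ne_zero, ?_⟩
    · rw [pow_zero]; exact Submodule.one_le.mp le_rfl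
    · simp [hz0]
  · obtain ⟨n, hn⟩ := exists_mem_T1_pow_of_mem_closure t hy
    obtain ⟨m, hm⟩ := exists_mem_T1_pow_of_mem_closure t hz
    exact ⟨n + m, y, z, T1_pow_mono t (Nat.le_add_right n m) hn,
      T1_pow_mono t (Nat.le_add_left m n) hm, hz0, rfl⟩

/-- Clearing denominators of finitely many elements of `K(t)`. -/
theorem exists_common_denominator (t : Fin g → F) (C : Finset F)
    (hC : ∀ x ∈ C, x ∈ coordSub K t) :
    ∃ (D : F) (n : ℕ), D ≠ 0 ∧ D ∈ T1 K t ^ n ∧ ∀ x ∈ C, D * x ∈ T1 K t ^ n := by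
  classical
  induction C using Finset.induction_on with
  | empty => exact ⟨1, 0, one_ne_zero, by rw [pow_zero]; exact Submodule.one_le.mp le_rfl, by simp⟩
  | insert x C _ ih =>
    obtain ⟨D, n, hD0, hD, hDC⟩ := ih fun y hy => hC y (Finset.mem_insert_of_mem hy)
    obtain ⟨m, y, z, hy, hz, hz0, rfl⟩ :=
      exists_frac_of_mem_coordSub t (hC x (Finset.mem_insert_self _ _))
    refine ⟨D * z, n + m, mul_ne_zero hD0 hz0, ?_, ?_⟩
    · rw [pow_add]; exact Submodule.mul_mem_mul hD hz
    · intro u hu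
      rcases Finset.mem_insert.mp hu with rfl | hu
      · have : D * z * (y / z) = D * y := by field_simp
        rw [this, pow_add]
        exact Submodule.mul_mem_mul hD hy
      · have : D * z * u = D * u * z := by ring
        rw [this, pow_add]
        exact Submodule.mul_mem_mul (hDC u hu) hz


theorem span_range_eq_mul_T1 (w : Fin (g + 1) → F) (hw0 : w 0 ≠ 0) :
    Submodule.span K (Set.range w) =
      Submodule.span K {w 0} * T1 K (fun i : Fin g => w i.succ / w 0) := by
  rw [T1, Submodule.span_mul_span]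
  congr 1
  ext x
  simp only [Set.mem_range, Set.singleton_mul, Set.mem_image, Set.mem_insert_iff]
  constructor
  · rintro ⟨i, rfl⟩
    refine Fin.cases ?_ (fun j => ?_) i
    · exact ⟨1, Or.inl rfl, mul_one _⟩
    · exact ⟨w j.succ / w 0, Or.inr ⟨j, rfl⟩, mul_div_cancel₀ _ hw0⟩
  · rintro ⟨y, hy | ⟨j, rfl⟩, rfl⟩
    · exact ⟨0, by rw [hy, mul_one]⟩
    · exact ⟨j.succ, (mul_div_cancel₀ _ hw0).symm⟩

theorem span_singleton_pow' (a : F) (n : ℕ) :
    Submodule.span K {a} ^ n = Submodule.span K {a ^ n} := by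
  rw [Submodule.span_pow, Set.singleton_pow]

/-- Lower bound: `r * dim (T ^ m) ≤ dim (T ^ m * Φ)` if `φ` is linearly independent over
`K(t)`. -/
theorem card_mul_finrank_le (t : Fin g → F) {ι : Type*} [Fintype ι] (φ : ι → F)
    (hφ : LinearIndependent (coordSub K t) φ) (m : ℕ) :
    Fintype.card ι * Module.finrank K ↥(T1 K t ^ m) ≤
      Module.finrank K ↥(T1 K t ^ m * Submodule.span K (Set.range φ)) := by
  classical
  set T := T1 K t ^ m with hT
  set Φ := Submodule.span K (Set.range φ) with hΦ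
  have hTfg : T.FG := (T1_fg t).pow m
  have hΦfg : Φ.FG := Submodule.fg_span (Set.finite_range φ)
  have : Module.Finite K ↥(T * Φ) := Module.Finite.iff_fg.mpr (hTfg.mul hΦfg)
  let Λ : (ι → ↥T) →ₗ[K] F :=
    ∑ i, (LinearMap.mulRight K (φ i)).comp (T.subtype.comp (LinearMap.proj i))
  have hΛ : ∀ v : ι → ↥T, Λ v = ∑ i, (v i : F) * φ i := by
    intro v
    simp [Λ, LinearMap.sum_apply]
  have hmem : ∀ v, Λ v ∈ T * Φ := by
    intro v
    rw [hΛ]
    exact Submodule.sum_mem _ fun i _ =>
      Submodule.mul_mem_mul (v i).2 (Submodule.subset_span ⟨i, rfl⟩)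
  let Λ' : (ι → ↥T) →ₗ[K] ↥(T * Φ) := Λ.codRestrict _ hmem
  have hinj : Function.Injective Λ' := by
    rw [injective_iff_map_eq_zero]
    intro v hv
    have hv' : Λ v = 0 := congrArg Subtype.val hv
    rw [hΛ] at hv'
    have hc : ∀ i, (v i : F) ∈ coordSub K t := fun i =>
      mem_coordSub_of_mem_T1_pow t (v i).2
    have := Fintype.linearIndependent_iff.mp hφ (fun i => ⟨(v i : F), hc i⟩) (by
      simpa [Subfield.smul_def] using hv')
    funext i
    have hi : (v i : F) = 0 := congrArg Subtype.val (this i)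
    exact Subtype.ext hi
  have := LinearMap.finrank_le_finrank_of_injective hinj
  rwa [Module.finrank_pi_fintype, Finset.sum_const, Finset.card_univ, smul_eq_mul] at this

/-- The main inequality of the sandwich argument. -/
theorem card_le_finrank_of_isRed (w w' : Fin (g + 1) → F) (hw0 : w 0 ≠ 0) (hw0' : w' 0 ≠ 0)
    (hi : ∀ p : MvPolynomial (Fin g) K,
      MvPolynomial.eval₂ (algebraMap K F) (fun i : Fin g => w i.succ / w 0) p = 0 → p = 0)
    (hi' : ∀ p : MvPolynomial (Fin g) K,
      MvPolynomial.eval₂ (algebraMap K F) (fun i : Fin g => w' i.succ / w' 0) p = 0 → p = 0)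
    {d : ℕ} (hred : IsRed (Submodule.span K (Set.range w'))
      (Submodule.span K (Set.range w') ⊔ Submodule.span K (Set.range w)) d)
    [Module.Finite (coordSub K (fun i : Fin g => w' i.succ / w' 0)) F]
    {ι : Type*} [Fintype ι] (φ : ι → F)
    (hφ : LinearIndependent (coordSub K (fun i : Fin g => w i.succ / w 0)) φ) :
    Fintype.card ι ≤ Module.finrank (coordSub K (fun i : Fin g => w' i.succ / w' 0)) F := by
  classical
  set t := fun i : Fin g => w i.succ / w 0 with ht
  set t' := fun i : Fin g => w' i.succ / w' 0 with ht'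
  set N := Submodule.span K (Set.range w) with hN
  set N' := Submodule.span K (Set.range w') with hN'
  set M := N' ⊔ N with hM
  set ρ' := Module.finrank (coordSub K t') F with hρ'
  let b := Module.finBasis (coordSub K t') F
  set Φ := Submodule.span K (Set.range φ) with hΦ
  set B := Submodule.span K (Set.range b) with hB
  have hΦfg : Φ.FG := Submodule.fg_span (Set.finite_range φ)
  have hBfg : B.FG := Submodule.fg_span (Set.finite_range b)
  have hMfg : M.FG :=
    (Submodule.fg_span (Set.finite_range w')).sup (Submodule.fg_span (Set.finite_range w))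
  have hΨfg : (M ^ d * Φ).FG := (hMfg.pow d).mul hΦfg
  obtain ⟨Sg, hSg⟩ := hΨfg
  let C : Finset F := Sg.biUnion fun ψ =>
    Finset.univ.image fun j => ((b.repr ψ j : coordSub K t') : F)
  have hC : ∀ x ∈ C, x ∈ coordSub K t' := by
    intro x hx
    obtain ⟨ψ, _, hx⟩ := Finset.mem_biUnion.mp hx
    obtain ⟨j, _, rfl⟩ := Finset.mem_image.mp hx
    exact (b.repr ψ j).2
  obtain ⟨D, n, hD0, hD, hDC⟩ := exists_common_denominator t' C hC
  have claim1 : Submodule.span K {D} * (M ^ d * Φ) ≤ T1 K t' ^ n * B := by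
    rw [← hSg, Submodule.span_mul_span, Submodule.span_le]
    rintro _ ⟨a, ha, ψ, hψ, rfl⟩
    rw [Set.mem_singleton_iff] at ha
    rw [ha]
    have hψe : ψ = ∑ j, ((b.repr ψ j : coordSub K t') : F) * b j := by
      conv_lhs => rw [← b.sum_repr ψ]
      rfl
    change D * ψ ∈ T1 K t' ^ n * B
    rw [hψe, Finset.mul_sum]
    refine Submodule.sum_mem _ fun j _ => ?_
    rw [← mul_assoc]
    refine Submodule.mul_mem_mul (hDC _ ?_) (Submodule.subset_span ⟨j, rfl⟩)
    exact Finset.mem_biUnion.mpr ⟨ψ, hψ, Finset.mem_image.mpr ⟨j, Finset.mem_univ _, rfl⟩⟩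
  have hNeq : N = Submodule.span K {w 0} * T1 K t := span_range_eq_mul_T1 w hw0
  have hN'eq : N' = Submodule.span K {w' 0} * T1 K t' := span_range_eq_mul_T1 w' hw0'
  have claim2 : ∀ s, Submodule.span K {D * w 0 ^ (s + d)} * (T1 K t ^ (s + d) * Φ) ≤
      Submodule.span K {w' 0 ^ s} * (T1 K t' ^ (s + n) * B) := by
    intro s
    calc Submodule.span K {D * w 0 ^ (s + d)} * (T1 K t ^ (s + d) * Φ)
        = Submodule.span K {D} * (N ^ (s + d) * Φ) := by
          rw [hNeq, mul_pow, span_singleton_pow', ← Set.singleton_mul_singleton,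
            ← Submodule.span_mul_span]
          simp only [mul_assoc]
      _ ≤ Submodule.span K {D} * (N' ^ s * M ^ d * Φ) := by
          gcongr
          exact (pow_le_pow_left' (le_sup_right : N ≤ M) _).trans (hred.pow_le s)
      _ = N' ^ s * (Submodule.span K {D} * (M ^ d * Φ)) := by
          simp only [mul_assoc, mul_left_comm]
      _ ≤ N' ^ s * (T1 K t' ^ n * B) := by gcongr
      _ = Submodule.span K {w' 0 ^ s} * (T1 K t' ^ (s + n) * B) := by
          rw [hN'eq, mul_pow, span_singleton_pow', pow_add]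
          simp only [mul_assoc]
  have key : ∀ s, Fintype.card ι * hfun K g s ≤ ρ' * hfun K g (s + n) := by
    intro s
    have e1 := card_mul_finrank_le t φ hφ (s + d)
    rw [finrank_T1_pow_of_indep t hi] at e1
    have e2 := finrank_span_singleton_mul (K := K) (a := D * w 0 ^ (s + d))
      (mul_ne_zero hD0 (pow_ne_zero _ hw0)) (T1 K t ^ (s + d) * Φ)
    have e3 := finrank_span_singleton_mul (K := K) (a := w' 0 ^ s) (pow_ne_zero _ hw0')
      (T1 K t' ^ (s + n) * B)
    have hfin1 : Module.Finite K ↥B := Module.Finite.iff_fg.mpr hBfg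
    have hfin2 : Module.Finite K ↥(Submodule.span K {w' 0 ^ s} * (T1 K t' ^ (s + n) * B)) :=
      Module.Finite.iff_fg.mpr ((Submodule.fg_span (Set.finite_singleton _)).mul
        (((T1_fg t').pow _).mul hBfg))
    have e4 := Submodule.finrank_mono (claim2 s)
    have e5 := finrank_mul_le (T1 K t' ^ (s + n)) B
    have e6 : Module.finrank K ↥B ≤ ρ' := by
      have := finrank_range_le_card (R := K) (b : Fin ρ' → F)
      rw [Fintype.card_fin] at this
      exact this
    calc Fintype.card ι * hfun K g s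
        ≤ Fintype.card ι * hfun K g (s + d) :=
          Nat.mul_le_mul_left _ (hfun_mono g (Nat.le_add_right s d))
      _ ≤ Module.finrank K ↥(T1 K t ^ (s + d) * Φ) := e1
      _ = Module.finrank K ↥(Submodule.span K {D * w 0 ^ (s + d)} * (T1 K t ^ (s + d) * Φ)) :=
          e2.symm
      _ ≤ Module.finrank K ↥(Submodule.span K {w' 0 ^ s} * (T1 K t' ^ (s + n) * B)) := e4
      _ = Module.finrank K ↥(T1 K t' ^ (s + n) * B) := e3
      _ ≤ Module.finrank K ↥(T1 K t' ^ (s + n)) * Module.finrank K ↥B := e5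
      _ = hfun K g (s + n) * Module.finrank K ↥B := by rw [finrank_T1_pow_of_indep t' hi']
      _ ≤ hfun K g (s + n) * ρ' := Nat.mul_le_mul_left _ e6
      _ = ρ' * hfun K g (s + n) := mul_comm _ _
  exact le_of_growth g (hfun K g) (one_le_hfun g) (hfun_le g) _ _ n key

theorem ne_zero_of_valBPF_of_indep (w w' : Fin (g + 1) → F) (h : ValBPF K w w')
    (hi : ∀ p : MvPolynomial (Fin g) K,
      MvPolynomial.eval₂ (algebraMap K F) (fun i : Fin g => w i.succ / w 0) p = 0 → p = 0) :
    w 0 ≠ 0 := by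
  intro h0
  obtain ⟨b, hb, -⟩ := h ⊤ (fun _ => trivial)
  rcases g with _ | g
  · apply hb
    have : b = 0 := Fin.ext (by omega)
    rw [this, h0]
  · have := hi (MvPolynomial.X 0) (by simp [h0])
    exact MvPolynomial.X_ne_zero (R := K) (0 : Fin (g + 1)) this

theorem finite_and_finrank_le (w w' : Fin (g + 1) → F) (hw0 : w 0 ≠ 0) (hw0' : w' 0 ≠ 0)
    (hi : ∀ p : MvPolynomial (Fin g) K,
      MvPolynomial.eval₂ (algebraMap K F) (fun i : Fin g => w i.succ / w 0) p = 0 → p = 0)
    (hi' : ∀ p : MvPolynomial (Fin g) K,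
      MvPolynomial.eval₂ (algebraMap K F) (fun i : Fin g => w' i.succ / w' 0) p = 0 → p = 0)
    (h' : ValBPF K w' w)
    [Module.Finite (coordSub K (fun i : Fin g => w' i.succ / w' 0)) F] :
    Module.Finite (coordSub K (fun i : Fin g => w i.succ / w 0)) F ∧
      Module.finrank (coordSub K (fun i : Fin g => w i.succ / w 0)) F ≤
        Module.finrank (coordSub K (fun i : Fin g => w' i.succ / w' 0)) F := by
  obtain ⟨d, hd⟩ := exists_isRed w' w h'
  have hrank : Module.rank (coordSub K (fun i : Fin g => w i.succ / w 0)) F ≤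
      (Module.finrank (coordSub K (fun i : Fin g => w' i.succ / w' 0)) F : ℕ) := by
    refine rank_le fun s hs => ?_
    have := card_le_finrank_of_isRed w w' hw0 hw0' hi hi' hd (fun i : s => (i : F)) hs
    rwa [Fintype.card_coe] at this
  refine ⟨?_, Module.finrank_le_of_rank_le hrank⟩
  rw [← Module.rank_lt_aleph0_iff]
  exact lt_of_le_of_lt hrank (Cardinal.natCast_lt_aleph0)

/-- **BETA, algebraic form.**  Two systems of homogeneous coordinates which dominate each
other at every valuation ring of `F / K` and have algebraically independent affine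
coordinates have the same degree. -/
theorem finrank_coordSub_eq (w w' : Fin (g + 1) → F) (h : ValBPF K w w') (h' : ValBPF K w' w)
    (hi : ∀ p : MvPolynomial (Fin g) K,
      MvPolynomial.eval₂ (algebraMap K F) (fun i : Fin g => w i.succ / w 0) p = 0 → p = 0)
    (hi' : ∀ p : MvPolynomial (Fin g) K,
      MvPolynomial.eval₂ (algebraMap K F) (fun i : Fin g => w' i.succ / w' 0) p = 0 → p = 0) :
    Module.finrank (coordSub K (fun i : Fin g => w i.succ / w 0)) F =
      Module.finrank (coordSub K (fun i : Fin g => w' i.succ / w' 0)) F := by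
  have hw0 := ne_zero_of_valBPF_of_indep w w' h hi
  have hw0' := ne_zero_of_valBPF_of_indep w' w h' hi'
  by_cases hf' : Module.Finite (coordSub K (fun i : Fin g => w' i.succ / w' 0)) F
  · obtain ⟨hf, hle⟩ := finite_and_finrank_le w w' hw0 hw0' hi hi' h'
    obtain ⟨-, hle'⟩ := finite_and_finrank_le w' w hw0' hw0 hi' hi h
    exact le_antisymm hle hle'
  · by_cases hf : Module.Finite (coordSub K (fun i : Fin g => w i.succ / w 0)) F
    · exact absurd (finite_and_finrank_le w' w hw0' hw0 hi' hi h).1 hf'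
    · rw [Module.finrank_of_not_finite hf, Module.finrank_of_not_finite hf']

end Coord

end Field

end Fermat.Agent.S26.Beta.H867
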