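/-
Row S26, block BETA (helper867): the frozen statement `Stmt.Beta` of `SpecDeg.lean`.

  theorem beta [IsAlgClosed K] : Stmt.Beta K

and the stronger `deg_eq_of_bpf` (only `LS.BPF`, `LS.Same`, `LS.Indep` and properness are used;
`LS.Good`, i.e. affineness of the charts, is not needed, nor is `IsAlgClosed`).

Route (no product `X × T`, no family, no discrete valuation ring):
* `exists_stalk_le_valuationSubring`: valuative criterion at the generic point — a valuation
  ring of `K(X)` containing `K` contains the local ring of some point of `X`;
* `valBPF_of_bpf_same`: hence at every such valuation ring some `w b` divides all `w' j`;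
* `BetaAlg.finrank_coordSub_eq`: integrality over the Rees algebra + Hilbert-function sandwich.
-/
import Fermat.Agent.S26.SpecDeg
import Fermat.Agent.S26.Beta.H867.BetaAlg

set_option autoImplicit false

universe u

open CategoryTheory AlgebraicGeometry

namespace Fermat.Agent.S26.Beta.H867

variable {K : Type u} [Field K] {X : Scheme.{u}} [IsIntegral X]

theorem fromSpecStalk_comp_str (str : X ⟶ Spec (CommRingCat.of K)) :
    X.fromSpecStalk (genericPoint X) ≫ str = Spec.map (CommRingCat.ofHom (ffStr str)) := by
  have h1 : CommRingCat.ofHom (ffStr str) =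
      (Scheme.ΓSpecIso (CommRingCat.of K)).inv ≫ str.appTop ≫
        X.presheaf.germ ⊤ (genericPoint X) (TopologicalSpace.Opens.mem_top _) := rfl
  rw [h1, Spec.map_comp, Spec.map_comp, ← Scheme.fromSpecStalk_toSpecΓ]
  simp only [Category.assoc]
  rw [← Scheme.toSpecΓ_naturality_assoc, toSpecΓ_SpecMap_ΓSpecIso_inv, Category.comp_id]

/-- Valuative criterion at the generic point: a valuation ring of the function field
containing the constants contains the local ring of some point. -/
theorem exists_stalk_le_valuationSubring (str : X ⟶ Spec (CommRingCat.of K)) [IsProper str]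
    (V : ValuationSubring X.functionField) (hV : ∀ c : K, ffStr str c ∈ V) :
    ∃ x : X, ∀ f : X.presheaf.stalk x,
      algebraMap (X.presheaf.stalk x) X.functionField f ∈ V := by
  have hc : ValuativeCriterion.Existence str := by
    have : UniversallyClosed str := inferInstance
    rw [UniversallyClosed.eq_valuativeCriterion] at this
    exact this.1
  let φ : K →+* V := (ffStr str).codRestrict V.toSubring hV
  have hsq : CommSq (X.fromSpecStalk (genericPoint X))
      (Spec.map (CommRingCat.ofHom (algebraMap V X.functionField))) str
      (Spec.map (CommRingCat.ofHom φ)) := by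
    have e : CommRingCat.ofHom (ffStr str) =
        CommRingCat.ofHom φ ≫ CommRingCat.ofHom (algebraMap V X.functionField) := rfl
    exact ⟨(fromSpecStalk_comp_str str).trans ((congrArg Spec.map e).trans (Spec.map_comp _ _))⟩
  let S : ValuativeCommSq str :=
    ⟨V, X.functionField, X.fromSpecStalk (genericPoint X), Spec.map (CommRingCat.ofHom φ), hsq⟩
  obtain ⟨⟨l, hl₁, -⟩⟩ := (hc S).exists_lift
  replace hl₁ : Spec.map (CommRingCat.ofHom (algebraMap V X.functionField)) ≫ l =
      X.fromSpecStalk (genericPoint X) := hl₁
  refine ⟨l (IsLocalRing.closedPoint V), fun f => ?_⟩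
  have hspec : genericPoint X ⤳ l (IsLocalRing.closedPoint V) :=
    (genericPoint_spec X).specializes trivial
  have h2 : Spec.map (Scheme.stalkClosedPointTo l ≫
      CommRingCat.ofHom (algebraMap V X.functionField)) ≫
        X.fromSpecStalk (l (IsLocalRing.closedPoint V)) =
      Spec.map (X.presheaf.stalkSpecializes hspec) ≫
        X.fromSpecStalk (l (IsLocalRing.closedPoint V)) := by
    rw [Scheme.SpecMap_stalkSpecializes_fromSpecStalk, Spec.map_comp, Category.assoc,
      Scheme.Spec_stalkClosedPointTo_fromSpecStalk, hl₁]
  have h3 := Spec.map_injective ((cancel_mono _).mp h2)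
  have h4 : algebraMap (X.presheaf.stalk (l (IsLocalRing.closedPoint V))) X.functionField f =
      (X.presheaf.stalkSpecializes hspec).hom f := rfl
  rw [h4, ← h3]
  exact ((Scheme.stalkClosedPointTo l).hom f).2

/-- A base point free system `w` dominates, at every valuation ring of the function field
containing the constants, every system `w'` generating the same fractional ideals. -/
theorem valBPF_of_bpf_same (str : X ⟶ Spec (CommRingCat.of K)) [IsProper str] {ι ι' : Type}
    (w : ι → X.functionField) (w' : ι' → X.functionField) (hbpf : LS.BPF w)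
    (hsame : LS.Same w w') :
    @ValBPF K X.functionField _ _ (ffStr str).toAlgebra ι ι' w w' := by
  intro V hV
  obtain ⟨x, hx⟩ := exists_stalk_le_valuationSubring str V hV
  obtain ⟨b, hb0, hspan⟩ := hbpf x
  refine ⟨b, hb0, fun j => ?_⟩
  have hj : w' j ∈ LS.span w' x := Submodule.subset_span ⟨j, rfl⟩
  rw [← hsame x, hspan] at hj
  obtain ⟨a, ha⟩ := Submodule.mem_span_singleton.mp hj
  rw [← ha, Algebra.smul_def, mul_div_assoc, div_self hb0, mul_one]
  exact hx a

/-- **BETA** (stronger form): only base point freeness is used. -/
theorem deg_eq_of_bpf (str : X ⟶ Spec (CommRingCat.of K)) [IsProper str] (g : ℕ)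
    (w w' : Fin (g + 1) → X.functionField) (hw : LS.BPF w) (hw' : LS.BPF w')
    (hsame : LS.Same w w') (hi : LS.Indep str w) (hi' : LS.Indep str w') :
    LS.deg str w = LS.deg str w' := by
  letI := (ffStr str).toAlgebra
  have h := valBPF_of_bpf_same str w w' hw hsame
  have h' := valBPF_of_bpf_same str w' w hw' (fun x => (hsame x).symm)
  exact finrank_coordSub_eq w w' h h' hi hi'

/-- **BETA**: the frozen statement `Stmt.Beta` of `SpecDeg.lean`. -/
theorem beta [IsAlgClosed K] : Stmt.Beta K := by
  intro X _ str _ g w w' hw hw' hsame hi hi'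
  exact deg_eq_of_bpf str g w w' hw.1 hw'.1 hsame hi hi'

end Fermat.Agent.S26.Beta.H867
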